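/-
Row 37 (S43), block GLUE, LAYER 3, group L0 (with TRIV), shadow slot (helper10): the fields `dnK` and `L0` of `Ctx.raw`,
in literal shape, from `Triv/Final.lean` (`raw_dnK`, `raw_L0`).
-/
import Fermat.Agent.S43.Glue.Conc.Ctx
import Fermat.Agent.S43.Triv.Final

set_option autoImplicit false

noncomputable section

namespace Fermat.Agent.S43.Glue.Conc.Sh.DnK

open ModularCurve AlgebraicCurve
open Fermat.Agent.S24 Fermat.Agent.S48.BB Fermat.Agent.S48.BB.E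
open Fermat.Agent.GAL.E (GQ)

variable {P : FreyPackage} {M q : ℕ} [NeZero q] [NeZero M] (C : Ctx P M q)

theorem neZero_n : NeZero C.n := ⟨mul_ne_zero (pow_ne_zero _ P.pp.ne_zero) P.pp.ne_zero⟩

/-- **Field `dnK` of `Ctx.raw`.** -/
theorem dnK : ∀ x ∈ LocZ.loc C.tH, x ∈ Triv.KD C.L.D.toDia C.A C.n →
    Ops.Pi.dn q M C.n x ∈ Triv.Kinf (F0 q M) C.A C.n := by
  intro x _ hx
  haveI := neZero_n C
  exact Triv.raw_dnK C.hA C.hyp.hq x hx

/-- **Field `L0` of `Ctx.raw`.** -/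
theorem L0 (G : C.Gal) : ∀ y ∈ LocZ.loc C.tZ,
    r0 q M C.n G.φ y - C.X0.UW C.n y ∈ Triv.Kinf (F0 q M) C.A C.n := by
  intro y _
  haveI := neZero_n C
  exact Triv.raw_L0 C.hA C.hyp.hq C.X0 G.φ G.hφ y

end Fermat.Agent.S43.Glue.Conc.Sh.DnK

end
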